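import Fermat.Agent.Lib.FF398.Hecke

/-!
# Lib/FF398 — the Hecke correspondence on a single place (helper398)

* `correspondence_single` : for a correspondence `ψ_* φ^*` between function fields,
  `ψ_* φ^* [P] = ∑_{W ∈ φ-fibre of P} e_φ(W) · f_ψ(W) · [W|_ψ]`;
* `heckeDivBar_single` : for `T_ℓ = α_* β^*` on `ℚ̄(X₀(N))` (all residue degrees are one),
  `T_ℓ [P] = ∑_{W : W|_β = P} e_β(W) · [W|_α]`;
* `sum_ramificationIndexAlong` : `∑_{W : W|_φ = P} e_φ(W) = [F' : φ F]`.
-/

set_option autoImplicit false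
set_option linter.style.haveILetI false
set_option linter.unusedSectionVars false

open AlgebraicCurve ModularCurve

namespace Fermat.Agent.Lib.FF398

section General

variable {K F F' : Type*} [Field K] [Field F] [Field F'] [Algebra K F] [Algebra K F']
  [HasPrincipalDivisors K F']

/-- `ψ_* φ^* (n[P]) = ∑_{W ∈ φ-fibre of P} n e_φ(W) f_ψ(W) [W|_ψ]`. -/
theorem correspondence_single (φ ψ : F →ₐ[K] F') (hφ : φ.toRingHom.IsIntegral)
    (hψ : ψ.toRingHom.IsIntegral) (P : Place K F) (n : ℤ) :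
    Divisor.correspondence φ ψ hφ hψ (Finsupp.single P n) =
      ∑ W ∈ Place.fiberAlong φ hφ P,
        Finsupp.single (W.restrictAlong ψ hψ)
          (n * W.ramificationIndexAlong φ * W.inertiaDegAlong ψ hψ) := by
  rw [Divisor.correspondence_apply, Divisor.pullbackAlong_single, map_sum]
  refine Finset.sum_congr rfl fun W _ => ?_
  rw [Divisor.pushforwardAlong_single]

/-- residue degrees along `ψ` are one if all places of `F'` have degree one -/
theorem inertiaDegAlong_eq_one (ψ : F →ₐ[K] F') (hψ : ψ.toRingHom.IsIntegral)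
    (hdeg' : ∀ w : Place K F', w.deg = 1) (W : Place K F') : W.inertiaDegAlong ψ hψ = 1 := by
  letI := algebraAlong ψ
  haveI := isScalarTower_along ψ
  haveI := isIntegral_along ψ hψ
  exact inertiaDeg_eq_one hdeg' W

/-- `ψ_* φ^* (n[P]) = ∑_{W ∈ φ-fibre of P} n e_φ(W) [W|_ψ]` when all places of `F'` have
degree one. -/
theorem correspondence_single_of_deg (φ ψ : F →ₐ[K] F') (hφ : φ.toRingHom.IsIntegral)
    (hψ : ψ.toRingHom.IsIntegral) (hdeg' : ∀ w : Place K F', w.deg = 1) (P : Place K F) (n : ℤ) :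
    Divisor.correspondence φ ψ hφ hψ (Finsupp.single P n) =
      ∑ W ∈ Place.fiberAlong φ hφ P,
        Finsupp.single (W.restrictAlong ψ hψ) (n * W.ramificationIndexAlong φ) := by
  rw [correspondence_single]
  refine Finset.sum_congr rfl fun W _ => ?_
  rw [inertiaDegAlong_eq_one ψ hψ hdeg' W, Nat.cast_one, mul_one]

/-- push-forward of the previous formula along any map `r` of places -/
theorem mapDomain_correspondence_single_of_deg {X : Type*} (r : Place K F → X)
    (φ ψ : F →ₐ[K] F') (hφ : φ.toRingHom.IsIntegral)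
    (hψ : ψ.toRingHom.IsIntegral) (hdeg' : ∀ w : Place K F', w.deg = 1) (P : Place K F) (n : ℤ) :
    Finsupp.mapDomain r (Divisor.correspondence φ ψ hφ hψ (Finsupp.single P n)) =
      ∑ W ∈ Place.fiberAlong φ hφ P,
        Finsupp.single (r (W.restrictAlong ψ hψ)) (n * W.ramificationIndexAlong φ) := by
  rw [correspondence_single_of_deg φ ψ hφ hψ hdeg', Finsupp.mapDomain_finsetSum]
  refine Finset.sum_congr rfl fun W _ => ?_
  rw [Finsupp.mapDomain_single]

/-- `∑_{W : W|_φ = P} e_φ(W) = [F' : φ F]` -/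
theorem sum_ramificationIndexAlong [CharZero F] (φ : F →ₐ[K] F')
    (hφ : φ.toRingHom.IsIntegral) (hfin : FiniteAlong K φ)
    (hdeg' : ∀ w : Place K F', w.deg = 1) (P : Place K F) :
    ∑ W ∈ Place.fiberAlong φ hφ P, (W.ramificationIndexAlong φ : ℤ) = (finrankAlong K φ : ℤ) := by
  letI := algebraAlong φ
  haveI := isScalarTower_along φ
  haveI := isIntegral_along φ hφ
  haveI : FiniteDimensional F F' := hfin
  exact sum_ramificationIndex P hdeg' (Place.fiberAlong φ hφ P) fun W => Place.mem_fiberAlong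

end General

section Modular

variable (N ℓ : ℕ) [NeZero N] [NeZero ℓ]

/-- **`T_ℓ` on a point**: `T_ℓ [P] = ∑_{W : W|_β = P} e_β(W) · [W|_α]`. -/
theorem heckeDivBar_single (hα : HeckeAlphaBarIntegral (AlgebraicClosure ℚ) N ℓ)
    (hβ : HeckeBetaBarIntegral (AlgebraicClosure ℚ) N ℓ)
    [HasPrincipalDivisors (AlgebraicClosure ℚ) (modularFunctionFieldBar (N * ℓ))]
    (P : Place (AlgebraicClosure ℚ) (modularFunctionFieldBar N)) (n : ℤ) :
    heckeDivBar hα hβ (Finsupp.single P n) =
      ∑ W ∈ Place.fiberAlong (heckeBetaBar (AlgebraicClosure ℚ) N ℓ) hβ P,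
        Finsupp.single (W.restrictAlong (heckeAlphaBar (AlgebraicClosure ℚ) N ℓ) hα)
          (n * W.ramificationIndexAlong (heckeBetaBar (AlgebraicClosure ℚ) N ℓ)) :=
  correspondence_single_of_deg _ _ hβ hα (deg_eq_one_FF (N * ℓ)) P n

/-- push-forward of `T_ℓ [P]` along a map `r` of places -/
theorem mapDomain_heckeDivBar_single {X : Type*}
    (r : Place (AlgebraicClosure ℚ) (modularFunctionFieldBar N) → X)
    (hα : HeckeAlphaBarIntegral (AlgebraicClosure ℚ) N ℓ)
    (hβ : HeckeBetaBarIntegral (AlgebraicClosure ℚ) N ℓ)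
    [HasPrincipalDivisors (AlgebraicClosure ℚ) (modularFunctionFieldBar (N * ℓ))]
    (P : Place (AlgebraicClosure ℚ) (modularFunctionFieldBar N)) (n : ℤ) :
    Finsupp.mapDomain r (heckeDivBar hα hβ (Finsupp.single P n)) =
      ∑ W ∈ Place.fiberAlong (heckeBetaBar (AlgebraicClosure ℚ) N ℓ) hβ P,
        Finsupp.single (r (W.restrictAlong (heckeAlphaBar (AlgebraicClosure ℚ) N ℓ) hα))
          (n * W.ramificationIndexAlong (heckeBetaBar (AlgebraicClosure ℚ) N ℓ)) :=
  mapDomain_correspondence_single_of_deg r _ _ hβ hα (deg_eq_one_FF (N * ℓ)) P n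

/-- `∑_{W : W|_β = P} e_β(W) = [F_{Nℓ} : β F_N]` -/
theorem sum_ramificationIndexAlong_beta
    (hβ : HeckeBetaBarIntegral (AlgebraicClosure ℚ) N ℓ)
    [HasPrincipalDivisors (AlgebraicClosure ℚ) (modularFunctionFieldBar (N * ℓ))]
    (P : Place (AlgebraicClosure ℚ) (modularFunctionFieldBar N)) :
    ∑ W ∈ Place.fiberAlong (heckeBetaBar (AlgebraicClosure ℚ) N ℓ) hβ P,
        (W.ramificationIndexAlong (heckeBetaBar (AlgebraicClosure ℚ) N ℓ) : ℤ) =
      (finrankAlong (AlgebraicClosure ℚ) (heckeBetaBar (AlgebraicClosure ℚ) N ℓ) : ℤ) :=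
  sum_ramificationIndexAlong _ hβ (finiteAlong_beta N ℓ) (deg_eq_one_FF (N * ℓ)) P

end Modular

end Fermat.Agent.Lib.FF398
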